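import Fermat.Agent.S27.Defs

/-!
# S27 block [G4]: connectedness of the space of places by the maximum principle

`clopen_eq_univ_aux` is the statement `clopen_eq_univ` of the skeleton, with the three inputs from the
blocks [A] and [C] (compactness, continuity of the evaluations, interpolation) as hypotheses.
-/

set_option autoImplicit false

namespace Fermat.Agent.S27

open AlgebraicCurve Fermat.Agent.S24.FF Topology Filter Metric

namespace Connected

section Val

variable {K F : Type*} [Field K] [Field F] [Algebra K F]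

theorem val_spec' [IsAlgClosed K] [IsFF1 K F] (v : Place K F) {f : F} (hf : 0 ≤ v.ord f) :
    f = algebraMap K F (val v f) ∨ 0 < v.ord (f - algebraMap K F (val v f)) := by
  have h := exists_ord_sub_pos (K := K) v hf
  unfold val
  rw [dif_pos h]
  exact h.choose_spec

theorem value_unique (v : Place K F) {f : F} {c c' : K}
    (h : f = algebraMap K F c ∨ 0 < v.ord (f - algebraMap K F c))
    (h' : f = algebraMap K F c' ∨ 0 < v.ord (f - algebraMap K F c')) : c = c' := by
  rcases h with h | h <;> rcases h' with h' | h'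
  · exact (algebraMap K F).injective (h.symm.trans h')
  · rw [h, ← map_sub, ord_algebraMap] at h'
    exact absurd h' (lt_irrefl 0)
  · rw [h', ← map_sub, ord_algebraMap] at h
    exact absurd h (lt_irrefl 0)
  · exact eq_of_ord_sub_pos v h h'

theorem val_eq_of' (v : Place K F) {f : F} {c : K}
    (h : f = algebraMap K F c ∨ 0 < v.ord (f - algebraMap K F c)) : val v f = c := by
  have hex : ∃ c : K, f = algebraMap K F c ∨ 0 < v.ord (f - algebraMap K F c) := ⟨c, h⟩
  unfold val
  rw [dif_pos hex]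
  exact value_unique v hex.choose_spec h

end Val

variable {F : Type*} [Field F] [Algebra ℂ F] [IsFF1 ℂ F]

omit [IsFF1 ℂ F] in
/-- the places of a chart are pairwise distinct near `0`. -/
theorem chart_injOn {v : Place ℂ F} (c : Chart v) :
    Set.InjOn c.w {τ : ℂ | (c.w τ).ord (c.t - algebraMap ℂ F τ) = 1} := by
  intro τ hτ τ' hτ' h
  have h1 : 0 < (c.w τ).ord (c.t - algebraMap ℂ F τ) := by
    rw [show (c.w τ).ord (c.t - algebraMap ℂ F τ) = 1 from hτ]; exact one_pos
  have h2 : 0 < (c.w τ).ord (c.t - algebraMap ℂ F τ') := by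
    rw [h, show (c.w τ').ord (c.t - algebraMap ℂ F τ') = 1 from hτ']; exact one_pos
  exact eq_of_ord_sub_pos _ h1 h2

/-- a function which takes the value `a` at all places of a chart near `0` is constant. -/
theorem eq_const_of_eventually {v : Place ℂ F} (c : Chart v) (f : F) (a : ℂ)
    (h : ∀ᶠ τ in 𝓝 (0 : ℂ), 0 ≤ (c.w τ).ord f ∧ val (c.w τ) f = a) : f = algebraMap ℂ F a := by
  by_contra hne
  have hev := h.and c.ord_t
  have hinf : {τ : ℂ | (0 ≤ (c.w τ).ord f ∧ val (c.w τ) f = a) ∧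
      (c.w τ).ord (c.t - algebraMap ℂ F τ) = 1}.Infinite := infinite_of_mem_nhds 0 hev
  have hinj : Set.InjOn c.w {τ : ℂ | (0 ≤ (c.w τ).ord f ∧ val (c.w τ) f = a) ∧
      (c.w τ).ord (c.t - algebraMap ℂ F τ) = 1} :=
    (chart_injOn c).mono fun τ hτ => hτ.2
  have hinf2 := hinf.image hinj
  have hsub : c.w '' {τ : ℂ | (0 ≤ (c.w τ).ord f ∧ val (c.w τ) f = a) ∧
      (c.w τ).ord (c.t - algebraMap ℂ F τ) = 1} ⊆
      {u : Place ℂ F | 0 < u.ord (f - algebraMap ℂ F a)} := by
    rintro _ ⟨τ, ⟨⟨h1, h2⟩, -⟩, rfl⟩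
    have h3 := val_spec' (c.w τ) h1
    rw [h2] at h3
    exact h3.resolve_left hne
  obtain ⟨u, hu⟩ := (hinf2.mono hsub).nonempty
  have htr : Transcendental ℂ (f - algebraMap ℂ F a) :=
    transcendental_of_ord_ne_zero u (ne_of_gt hu)
  exact (hinf2.mono hsub) (finite_zeros htr)

end Connected

open Connected

variable {F : Type*} [Field F] [Algebra ℂ F] [IsFF1 ℂ F]

/-- [G4] with the inputs of the blocks [A], [C] as hypotheses. -/
theorem clopen_eq_univ_aux (hcomp : CompactSpace (Place ℂ F))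
    (hcont : ∀ f : F, ContinuousOn (fun v : Place ℂ F => val v f) {v : Place ℂ F | 0 ≤ v.ord f})
    (hinterp : ∀ (v w : Place ℂ F) (S : Finset (Place ℂ F)), v ∉ S → w ∉ S → v ≠ w →
      ∃ f : F, (∀ u : Place ℂ F, u ≠ v → 0 ≤ u.ord f) ∧ (∀ u ∈ S, val u f = 0) ∧ val w f = 1)
    (S : Finset (Place ℂ F)) (hS : ∀ v : Place ℂ F, v ∉ S → Nonempty (Chart v))
    (U : Set (Place ℂ F)) (hU : IsClopen U) (w : Place ℂ F) (hw : w ∈ U) (hwS : w ∉ S) :
    U = Set.univ := by
  classical
  by_contra hne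
  obtain ⟨v, hv⟩ : ∃ v, v ∉ U := by
    by_contra h
    push Not at h
    exact hne (Set.eq_univ_of_forall h)
  -- a second place `w' ≠ w` in `U`
  obtain ⟨cw⟩ := hS w hwS
  have hUw : ∀ᶠ τ in 𝓝 (0 : ℂ), cw.w τ ∈ U := by
    apply cw.cont
    rw [cw.w_zero]
    exact hU.isOpen.mem_nhds hw
  have hinf : {τ : ℂ | cw.w τ ∈ U ∧ (cw.w τ).ord (cw.t - algebraMap ℂ F τ) = 1}.Infinite :=
    infinite_of_mem_nhds 0 (hUw.and cw.ord_t)
  obtain ⟨τ₁, hτ₁, hτ₁0⟩ := hinf.exists_notMem_finset {0}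
  have hτ₁0' : τ₁ ≠ 0 := by simpa using hτ₁0
  have h0 : (cw.w 0).ord (cw.t - algebraMap ℂ F 0) = 1 := cw.ord_t.self_of_nhds
  have hw'ne : cw.w τ₁ ≠ w := by
    intro h
    exact hτ₁0' (chart_injOn cw hτ₁.2 h0 (h.trans cw.w_zero.symm))
  set w' := cw.w τ₁ with hw'
  have hw'U : w' ∈ U := hτ₁.1
  -- the interpolating function
  set T : Finset (Place ℂ F) := insert w' (S.filter (· ∈ U)) with hT
  have hvT : v ∉ T := by
    rw [hT, Finset.mem_insert, Finset.mem_filter]
    rintro (h | h)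
    · exact hv (h ▸ hw'U)
    · exact hv h.2
  have hwT : w ∉ T := by
    rw [hT, Finset.mem_insert, Finset.mem_filter]
    rintro (h | h)
    · exact hw'ne h.symm
    · exact hwS h.1
  have hvw : v ≠ w := fun h => hv (h ▸ hw)
  obtain ⟨f, hf1, hf2, hf3⟩ := hinterp v w T hvT hwT hvw
  have hreg : ∀ u ∈ U, 0 ≤ u.ord f := fun u hu => hf1 u fun h => hv (h ▸ hu)
  -- the maximum
  have hUc : IsCompact U := hU.isClosed.isCompact
  have hcontU : ContinuousOn (fun u : Place ℂ F => ‖val u f‖) U :=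
    ((hcont f).mono hreg).norm
  obtain ⟨w₀, hw₀U, hmax⟩ := hUc.exists_isMaxOn ⟨w, hw⟩ hcontU
  have hge : 1 ≤ ‖val w₀ f‖ := by
    have := hmax hw
    simp only [Set.mem_ofPred_eq, hf3, norm_one] at this
    exact this
  have hw₀T : w₀ ∉ T := by
    intro h
    rw [hf2 w₀ h, norm_zero] at hge
    exact absurd hge (by norm_num)
  have hw₀S : w₀ ∉ S := by
    intro h
    exact hw₀T (Finset.mem_insert_of_mem (Finset.mem_filter.mpr ⟨h, hw₀U⟩))
  obtain ⟨c⟩ := hS w₀ hw₀S
  obtain ⟨fh, hfh, hev⟩ := c.holo f (hreg w₀ hw₀U)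
  have hUc' : ∀ᶠ τ in 𝓝 (0 : ℂ), c.w τ ∈ U := by
    apply c.cont
    rw [c.w_zero]
    exact hU.isOpen.mem_nhds hw₀U
  have hfh0 : fh 0 = val w₀ f := by
    have := hev.self_of_nhds.2
    rw [c.w_zero] at this
    exact this.symm
  have hloc : IsLocalMax (norm ∘ fh) 0 := by
    filter_upwards [hev, hUc'] with τ h1 h2
    have := hmax h2
    simp only [Set.mem_ofPred_eq] at this
    simp only [Function.comp_apply]
    rw [hfh0, ← h1.2]
    exact this
  have hdiff : ∀ᶠ z in 𝓝 (0 : ℂ), DifferentiableAt ℂ fh z :=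
    hfh.eventually_analyticAt.mono fun z hz => hz.differentiableAt
  have hconst := Complex.eventually_eq_of_isLocalMax_norm hdiff hloc
  have hfc : f = algebraMap ℂ F (fh 0) := by
    apply eq_const_of_eventually c f (fh 0)
    filter_upwards [hev, hconst] with τ h1 h2
    exact ⟨h1.1, h1.2.trans h2⟩
  have e1 : val w f = fh 0 := val_eq_of' w (Or.inl hfc)
  have e2 : val w' f = fh 0 := val_eq_of' w' (Or.inl hfc)
  rw [hf3] at e1
  rw [hf2 w' (Finset.mem_insert_self _ _), ← e1] at e2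
  exact zero_ne_one e2

end Fermat.Agent.S27
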