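import Fermat.Agent.S27.C.Top

/-!
# S27 block [G3]: the classes `[w - v]` are small for `w` near `v`

`small_class_near_aux` is the statement `small_class_near` of the skeleton, with the facts of block
[A-R] (Riemann's theorem) that are used bundled in the hypothesis `SmallRiemann`.
-/

set_option autoImplicit false

namespace Fermat.Agent.S27

open AlgebraicCurve Fermat.Agent.S24.FF Topology Filter Metric

/-! ### An analytic lemma: solving `τ = η k(τ)` for small `η` -/

theorem small_exists_fixed {k : ℂ → ℂ} (hk : AnalyticAt ℂ k 0) {N : Set ℂ} (hN : N ∈ 𝓝 (0 : ℂ)) :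
    ∀ᶠ η in 𝓝 (0 : ℂ), ∃ τ ∈ N, τ = η * k τ := by
  by_cases h0 : k 0 = 0
  · exact Eventually.of_forall fun η => ⟨0, mem_of_mem_nhds hN, by simp [h0]⟩
  · set ψ : ℂ → ℂ := fun τ => τ / k τ with hψ
    have hψa : AnalyticAt ℂ ψ 0 := analyticAt_id.div hk h0
    have hd : HasDerivAt ψ (1 / k 0) 0 := by
      have h1 := (hasDerivAt_id (0 : ℂ)).div hk.differentiableAt.hasDerivAt h0
      have e : (1 * k 0 - id 0 * deriv k 0) / k 0 ^ 2 = 1 / k 0 := by
        simp only [id]
        field_simp
        ring
      rw [e] at h1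
      exact h1
    have hs : HasStrictDerivAt ψ (1 / k 0) 0 := by
      have := hψa.hasStrictDerivAt
      rwa [hd.deriv] at this
    have hmap : map ψ (𝓝 0) = 𝓝 (ψ 0) := hs.map_nhds_eq (one_div_ne_zero h0)
    have hψ0 : ψ 0 = 0 := by simp [hψ]
    rw [hψ0] at hmap
    have hne : {τ : ℂ | k τ ≠ 0} ∈ 𝓝 (0 : ℂ) := hk.continuousAt.eventually_ne h0
    have hN' : ψ '' (N ∩ {τ : ℂ | k τ ≠ 0}) ∈ 𝓝 (0 : ℂ) := by
      rw [← hmap]
      exact image_mem_map (inter_mem hN hne)
    filter_upwards [hN'] with η hη
    obtain ⟨τ, ⟨hτN, hτk⟩, rfl⟩ := hη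
    refine ⟨τ, hτN, ?_⟩
    simp only [hψ]
    exact (div_mul_cancel₀ τ hτk).symm

/-! ### Divisor bookkeeping -/

section Alg

variable {K F : Type*} [Field K] [Field F] [Algebra K F]

theorem small_sum_single_le {ι : Type*} [Fintype ι] (Q : ι → Place K F)
    (hQ : Function.Injective Q) (Z : Place K F → ℤ) (hZ : ∀ u, 0 ≤ Z u)
    (hZQ : ∀ a, 1 ≤ Z (Q a)) (u : Place K F) :
    (∑ a, Finsupp.single (Q a) (1 : ℤ)) u ≤ Z u := by
  classical
  rw [Finsupp.finsetSum_apply]
  simp only [Finsupp.single_apply]
  by_cases h : ∃ a, Q a = u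
  · obtain ⟨a, rfl⟩ := h
    simp only [hQ.eq_iff]
    rw [Finset.sum_ite_eq' Finset.univ a (fun _ => (1 : ℤ))]
    simpa using hZQ a
  · push Not at h
    rw [Finset.sum_eq_zero (fun a _ => if_neg (h a))]
    exact hZ u

theorem small_sumPts_nonneg {n : ℕ} (P : Fin n → Place K F) (u : Place K F) :
    0 ≤ sumPts P u := by
  classical
  unfold sumPts
  rw [Finsupp.finsetSum_apply]
  refine Finset.sum_nonneg fun i _ => ?_
  rw [Finsupp.single_apply]
  split_ifs <;> simp

theorem small_one_le_sumPts {n : ℕ} (P : Fin n → Place K F) (i : Fin n) :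
    1 ≤ sumPts P (P i) := by
  classical
  unfold sumPts
  rw [Finsupp.finsetSum_apply]
  have h : ∀ j ∈ Finset.univ, 0 ≤ (Finsupp.single (P j) (1 : ℤ)) (P i) := by
    intro j _
    rw [Finsupp.single_apply]
    split_ifs <;> simp
  calc (1 : ℤ) = (Finsupp.single (P i) (1 : ℤ)) (P i) := by simp
    _ ≤ _ := Finset.single_le_sum h (Finset.mem_univ i)

theorem small_sumPts_eq_zero {n : ℕ} (P : Fin n → Place K F) {u : Place K F}
    (hu : ∀ i, P i ≠ u) : sumPts P u = 0 := by
  classical
  unfold sumPts
  rw [Finsupp.finsetSum_apply]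
  refine Finset.sum_eq_zero fun i _ => ?_
  rw [Finsupp.single_apply, if_neg (hu i)]

/-- the facts of block [A-R] (Riemann's theorem) used in this file. -/
structure SmallRiemann (K F : Type*) [Field K] [Field F] [Algebra K F] : Prop where
  finite_L : ∀ D : Divisor K F, Module.Finite K (riemannRochSpace D)
  ell_sub_hh1 : ∀ D : Divisor K F,
    (ell D : ℤ) - hh1 D = Divisor.degree D + 1 - genusFF K F
  hh1_antitone : ∀ {D D' : Divisor K F}, D ≤ D' → hh1 D' ≤ hh1 D
  mem_zero_iff : ∀ f : F,
    f ∈ riemannRochSpace (0 : Divisor K F) ↔ f ∈ Set.range (algebraMap K F)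
  ord_eq : ∀ {B E : Divisor K F}, Divisor.degree E = Divisor.degree B → ∀ {s : F}, s ≠ 0 →
    (∀ v : Place K F, E v - B v ≤ v.ord s) → ∀ v : Place K F, v.ord s = E v - B v

variable [IsAlgClosed K] [IsFF1 K F]

omit [IsAlgClosed K] [IsFF1 K F] in
theorem small_ell_zero (R : SmallRiemann K F) : ell (0 : Divisor K F) = 1 := by
  have h := R.ell_sub_hh1 (0 : Divisor K F)
  have h2 : hh1 (0 : Divisor K F) = genusFF K F := rfl
  rw [h2, map_zero] at h
  omega

theorem small_exists_f1 (R : SmallRiemann K F) {g : ℕ} (hg : g = genusFF K F) (P : Fin g → Place K F)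
    (hP : ell (sumPts P) = 1) (v : Place K F) (hv : ∀ i, P i ≠ v) :
    ∃ f : F, f ∈ riemannRochSpace (Finsupp.single v 1 + sumPts P) ∧
      f ∉ Set.range (algebraMap K F) ∧ v.ord f < 0 := by
  classical
  have h1 : hh1 (sumPts P) = 0 := by
    have h := R.ell_sub_hh1 (sumPts P)
    rw [degree_sumPts, hP, ← hg] at h
    omega
  have hle : sumPts P ≤ Finsupp.single v 1 + sumPts P := by
    intro u
    rw [Finsupp.add_apply, Finsupp.single_apply]
    split_ifs <;> simp
  have h2 : hh1 (Finsupp.single v 1 + sumPts P) = 0 := by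
    have := R.hh1_antitone hle
    omega
  have h3 : ell (Finsupp.single v 1 + sumPts P) = 2 := by
    have h := R.ell_sub_hh1 (Finsupp.single v 1 + sumPts P)
    rw [map_add, degree_sumPts, Divisor.degree_single, deg_eq_one, h2, ← hg] at h
    push_cast at h
    omega
  have hfin0 := R.finite_L (0 : Divisor K F)
  have hfinP := R.finite_L (sumPts P)
  have h0P : riemannRochSpace (0 : Divisor K F) = riemannRochSpace (sumPts P) := by
    refine Submodule.eq_of_le_of_finrank_eq ?_ ?_
    · intro f hf
      rw [mem_riemannRochSpace_iff] at hf ⊢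
      intro u
      rcases hf u with h | h
      · exact Or.inl h
      · right
        have := small_sumPts_nonneg P u
        simp only [Finsupp.coe_zero, Pi.zero_apply, neg_zero] at h
        omega
    · have e0 : Module.finrank K (riemannRochSpace (0 : Divisor K F)) = 1 := small_ell_zero R
      rw [e0]
      exact hP.symm
  have hex : ∃ f : F, f ∈ riemannRochSpace (Finsupp.single v 1 + sumPts P) ∧
      f ∉ Set.range (algebraMap K F) := by
    by_contra hcon
    push Not at hcon
    have hle2 : riemannRochSpace (Finsupp.single v 1 + sumPts P) ≤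
        riemannRochSpace (0 : Divisor K F) := by
      intro f hf
      exact (R.mem_zero_iff f).mpr (hcon f hf)
    have := Submodule.finrank_mono hle2
    have e0 : Module.finrank K (riemannRochSpace (0 : Divisor K F)) = 1 := small_ell_zero R
    have e2 : Module.finrank K (riemannRochSpace (Finsupp.single v 1 + sumPts P)) = 2 := h3
    omega
  obtain ⟨f, hf, hfc⟩ := hex
  refine ⟨f, hf, hfc, ?_⟩
  by_contra hord
  push Not at hord
  apply hfc
  rw [← R.mem_zero_iff, h0P, mem_riemannRochSpace_iff]
  rw [mem_riemannRochSpace_iff] at hf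
  intro u
  rcases hf u with h | h
  · exact Or.inl h
  · right
    by_cases huv : u = v
    · subst huv
      have := small_sumPts_nonneg P u
      omega
    · rw [Finsupp.add_apply, Finsupp.single_apply, if_neg (Ne.symm huv)] at h
      simpa using h

theorem small_ord_eq_zero_of_val_ne_zero (u : Place K F) {f : F} (hf : 0 ≤ u.ord f)
    (h : val u f ≠ 0) : u.ord f = 0 := by
  by_contra hne
  apply h
  rw [val_eq_zero_iff u hf]
  right
  omega

theorem small_key (R : SmallRiemann K F) {g : ℕ} (P : Fin g → Place K F) (v : Place K F)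
    (f : F) (hf : f ∈ riemannRochSpace (Finsupp.single v 1 + sumPts P))
    (hfc : f ∉ Set.range (algebraMap K F))
    (w : Place K F) (hw : 0 ≤ w.ord f⁻¹) (hη : val w f⁻¹ ≠ 0)
    (t : Fin g → F) (ht : ∀ i, (P i).ord (t i) = 1)
    (W : Fin g → Place K F) (τ : Fin g → K)
    (hW0 : ∀ i, τ i = 0 → W i = P i)
    (hWt : ∀ i, (W i).ord (t i - algebraMap K F (τ i)) = 1)
    (hWf : ∀ i, 0 ≤ (W i).ord (f * t i))
    (hWτ : ∀ i, τ i = val w f⁻¹ * val (W i) (f * t i))
    (hinj : Function.Injective (fun a : Option (Fin g) => a.elim w W)) :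
    cls (Finsupp.single w 1 - Finsupp.single v 1) + cls (sumPts W - sumPts P) = 0 := by
  classical
  set η : K := val w f⁻¹ with hηdef
  set B : Divisor K F := Finsupp.single v 1 + sumPts P with hB
  set s : F := 1 - algebraMap K F η * f with hs
  have hf0 : f ≠ 0 := by
    rintro rfl
    exact hfc ⟨0, map_zero _⟩
  have hBnn : ∀ u, 0 ≤ B u := by
    intro u
    rw [hB, Finsupp.add_apply, Finsupp.single_apply]
    have := small_sumPts_nonneg P u
    split_ifs <;> omega
  have hs0 : s ≠ 0 := by
    intro h
    apply hfc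
    refine ⟨η⁻¹, ?_⟩
    have h1 : algebraMap K F η * f = 1 := by
      rw [hs, sub_eq_zero] at h
      exact h.symm
    have h2 : algebraMap K F η ≠ 0 := left_ne_zero_of_mul_eq_one h1
    rw [map_inv₀]
    exact (eq_inv_of_mul_eq_one_right h1).symm
  have hsB : s ∈ riemannRochSpace B := by
    refine Submodule.sub_mem _ ?_ ?_
    · rw [mem_riemannRochSpace_iff]
      intro u
      right
      rw [Place.ord_one]
      have := hBnn u
      omega
    · rw [← Algebra.smul_def]
      exact Submodule.smul_mem _ _ hf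
  have hZ : ∀ u : Place K F, 0 ≤ u.ord s + B u := by
    intro u
    rcases (mem_riemannRochSpace_iff.mp hsB) u with h | h
    · exact absurd h hs0
    · omega
  -- the zero at `w`
  have hZw : 1 ≤ w.ord s + B w := by
    have h1 : 0 < w.ord (f⁻¹ - algebraMap K F η) := by
      rcases val_spec w hw with h | h
      · exfalso
        apply hfc
        refine ⟨η⁻¹, ?_⟩
        rw [map_inv₀, ← h, inv_inv]
      · exact h
    have h2 : w.ord f⁻¹ = 0 := small_ord_eq_zero_of_val_ne_zero w hw hη
    have h3 : w.ord f = 0 := by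
      rw [Place.ord_inv] at h2
      omega
    have h4 : s = f * (f⁻¹ - algebraMap K F η) := by
      rw [hs]
      field_simp
    have h5 : f⁻¹ - algebraMap K F η ≠ 0 := by
      intro h
      rw [h] at h1
      simp at h1
    rw [h4, Place.ord_mul _ hf0 h5, h3]
    have := hBnn w
    omega
  -- the zeros at `W i`
  have hZW : ∀ i, 1 ≤ (W i).ord s + B (W i) := by
    intro i
    have ht0 : t i ≠ 0 := ne_zero_of_ord_ne_zero (P i) (by rw [ht i]; exact one_ne_zero)
    have hvt : val (W i) (t i) = τ i := val_eq_of (W i) (Or.inr (by rw [hWt i]; exact one_pos))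
    have hot : 0 ≤ (W i).ord (t i) := by
      have h1 : t i = (t i - algebraMap K F (τ i)) + algebraMap K F (τ i) := by ring
      rw [h1]
      exact ord_add_nonneg (W i) (by rw [hWt i]; exact zero_le_one)
        (by rw [ord_algebraMap])
    have hst : s * t i = t i + algebraMap K F (-η) * (f * t i) := by
      rw [hs, map_neg]; ring
    have ho2 : 0 ≤ (W i).ord (algebraMap K F (-η) * (f * t i)) := by
      by_cases h0 : algebraMap K F (-η) * (f * t i) = 0
      · rw [h0]; simp
      · rw [Place.ord_mul _ (left_ne_zero_of_mul h0) (right_ne_zero_of_mul h0), ord_algebraMap]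
        simpa using hWf i
    have hval : val (W i) (s * t i) = 0 := by
      rw [hst, val_add (W i) hot ho2,
        val_mul (W i) (by rw [ord_algebraMap]) (hWf i), val_algebraMap, hvt]
      rw [hWτ i]
      ring
    have host : 0 ≤ (W i).ord (s * t i) := by
      rw [hst]; exact ord_add_nonneg (W i) hot ho2
    have hpos : 0 < (W i).ord (s * t i) := by
      rcases (val_eq_zero_iff (W i) host).mp hval with h | h
      · exact absurd h (mul_ne_zero hs0 ht0)
      · exact h
    rw [Place.ord_mul _ hs0 ht0] at hpos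
    by_cases hτ : τ i = 0
    · have hWP := hW0 i hτ
      rw [hWP] at hpos ⊢
      rw [ht i] at hpos
      have h1 : 1 ≤ B (P i) := by
        rw [hB, Finsupp.add_apply, Finsupp.single_apply]
        have := small_one_le_sumPts P i
        split_ifs <;> omega
      omega
    · have h1 : (W i).ord (t i) = 0 :=
        small_ord_eq_zero_of_val_ne_zero (W i) hot (by rw [hvt]; exact hτ)
      have := hBnn (W i)
      omega
  -- the divisor `E`
  set E : Divisor K F := Finsupp.single w 1 + sumPts W with hE
  have hEsum : E = ∑ a : Option (Fin g), Finsupp.single (a.elim w W) (1 : ℤ) := by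
    rw [Fintype.sum_option]
    rfl
  have hle : ∀ u : Place K F, E u - B u ≤ u.ord s := by
    intro u
    have := small_sum_single_le (fun a : Option (Fin g) => a.elim w W) hinj
      (fun u => u.ord s + B u) hZ (by
        intro a
        cases a with
        | none => exact hZw
        | some i => exact hZW i) u
    rw [← hEsum] at this
    omega
  have hdegE : Divisor.degree E = Divisor.degree B := by
    rw [hE, hB, map_add, map_add, degree_sumPts, degree_sumPts, Divisor.degree_single,
      Divisor.degree_single, deg_eq_one, deg_eq_one]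
  have hord := R.ord_eq hdegE hs0 hle
  have hd1 : Divisor.degree (Finsupp.single w 1 - Finsupp.single v 1 : Divisor K F) = 0 := by
    rw [map_sub, Divisor.degree_single, Divisor.degree_single, deg_eq_one, deg_eq_one, sub_self]
  have hd2 : Divisor.degree (sumPts W - sumPts P) = 0 := by
    rw [map_sub, degree_sumPts, degree_sumPts, sub_self]
  rw [← cls_add hd1 hd2, cls_eq_zero_iff (by rw [map_add, hd1, hd2, add_zero])]
  refine ⟨s, hs0, fun u => ?_⟩
  rw [hord u, hE, hB]
  simp only [Finsupp.add_apply, Finsupp.sub_apply]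
  ring

end Alg

section Main

variable {K F : Type*} [Field K] [Field F] [Algebra K F]

theorem small_sumPts_self {n : ℕ} (P : Fin n → Place K F) (hP : Function.Injective P)
    (i : Fin n) : sumPts P (P i) = 1 := by
  classical
  unfold sumPts
  rw [Finsupp.finsetSum_apply]
  simp only [Finsupp.single_apply, hP.eq_iff]
  rw [Finset.sum_ite_eq' Finset.univ i (fun _ => (1 : ℤ))]
  simp

theorem small_cls_zero : cls (0 : Divisor K F) = 0 := by
  have h := cls_add (K := K) (F := F) (D := 0) (D' := 0) (map_zero _) (map_zero _)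
  rw [add_zero] at h
  exact left_eq_add.mp h

end Main

variable {F : Type*} [Field F] [Algebra ℂ F] [IsFF1 ℂ F]

/-- [G3] for `w` near an arbitrary place `v` (not among the `P i`), the class `[w - v]` is the
negative of a small element of the chart. -/
theorem small_class_near_aux (R : SmallRiemann ℂ F) {g : ℕ} (hg : g = genusFF ℂ F) (P : Fin g → Place ℂ F)
    (hinj : Function.Injective P) (c : ∀ i, Chart (P i)) (hP : ell (sumPts P) = 1)
    (v : Place ℂ F) (hv : ∀ i, P i ≠ v) (r : ℝ) (hr : 0 < r) :
    ∀ᶠ w in 𝓝 v, ∃ u ∈ ball (0 : Fin g → ℂ) r,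
      cls (Finsupp.single w 1 - Finsupp.single v 1) + chartMap c u = 0 := by
  classical
  have : T2Space (Place ℂ F) := t2Space_place
  obtain ⟨f, hf, hfc, hfv⟩ := small_exists_f1 R hg P hP v hv
  have hf0 : f ≠ 0 := by
    rintro rfl
    exact hfc ⟨0, map_zero _⟩
  -- separation of the points `v`, `P i`
  have hfin : (insert v (Set.range P)).Finite := (Set.finite_range P).insert v
  obtain ⟨U, hU, hdisj⟩ := hfin.t2_separation
  have hvs : v ∈ insert v (Set.range P) := Set.mem_insert _ _
  have hPs : ∀ i, P i ∈ insert v (Set.range P) := fun i => Set.mem_insert_of_mem _ ⟨i, rfl⟩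
  have hdv : ∀ i, Disjoint (U v) (U (P i)) := fun i => hdisj hvs (hPs i) (hv i).symm
  have hdP : ∀ i j, i ≠ j → Disjoint (U (P i)) (U (P j)) := fun i j hij =>
    hdisj (hPs i) (hPs j) (fun h => hij (hinj h))
  -- local coordinates
  have ht : ∀ i, (P i).ord (c i).t = 1 := by
    intro i
    have := (c i).ord_t.self_of_nhds
    rwa [(c i).w_zero, map_zero, sub_zero] at this
  have hft : ∀ i, 0 ≤ (P i).ord (f * (c i).t) := by
    intro i
    have ht0 : (c i).t ≠ 0 := ne_zero_of_ord_ne_zero (P i) (by rw [ht i]; exact one_ne_zero)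
    rw [Place.ord_mul _ hf0 ht0, ht i]
    rcases (mem_riemannRochSpace_iff.mp hf) (P i) with h | h
    · exact absurd h hf0
    · rw [Finsupp.add_apply, Finsupp.single_apply, if_neg (hv i).symm,
        small_sumPts_self P hinj i] at h
      omega
  choose k hk hkv using fun i => (c i).holo (f * (c i).t) (hft i)
  set N : Fin g → Set ℂ := fun i => {τ : ℂ | τ ∈ ball (0 : ℂ) r ∧
    ((c i).w τ).ord ((c i).t - algebraMap ℂ F τ) = 1 ∧
    (0 ≤ ((c i).w τ).ord (f * (c i).t) ∧ val ((c i).w τ) (f * (c i).t) = k i τ) ∧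
    (c i).w τ ∈ U (P i)} with hNdef
  have hN : ∀ i, N i ∈ 𝓝 (0 : ℂ) := by
    intro i
    have h1 : ∀ᶠ τ in 𝓝 (0 : ℂ), τ ∈ ball (0 : ℂ) r := ball_mem_nhds 0 hr
    have h4 : ∀ᶠ τ in 𝓝 (0 : ℂ), (c i).w τ ∈ U (P i) := by
      apply (c i).cont.eventually_mem
      rw [(c i).w_zero]
      exact (hU (P i)).2.mem_nhds (hU (P i)).1
    filter_upwards [h1, (c i).ord_t, hkv i, h4] with τ a1 a2 a3 a4
    exact ⟨a1, a2, a3, a4⟩
  -- the function `η`
  have hvinv : 0 < v.ord f⁻¹ := by
    rw [Place.ord_inv]; omega
  have hopen : {w : Place ℂ F | 0 ≤ w.ord f⁻¹} ∈ 𝓝 v :=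
    (isOpen_setOf_ord_nonneg f⁻¹).mem_nhds hvinv.le
  have hη0 : val v f⁻¹ = 0 := (val_eq_zero_iff v hvinv.le).mpr (Or.inr hvinv)
  have hηt : Tendsto (fun w : Place ℂ F => val w f⁻¹) (𝓝 v) (𝓝 0) := by
    have := (continuousOn_val f⁻¹).continuousAt hopen
    have h2 : Tendsto (fun w : Place ℂ F => val w f⁻¹) (𝓝 v) (𝓝 (val v f⁻¹)) := this
    rwa [hη0] at h2
  have hev : ∀ᶠ w in 𝓝 v, ∀ i, ∃ τ ∈ N i, τ = val w f⁻¹ * k i τ := by
    rw [eventually_all]
    intro i
    exact hηt.eventually (small_exists_fixed (hk i) (hN i))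
  have hUv : ∀ᶠ w in 𝓝 v, w ∈ U v := (hU v).2.mem_nhds (hU v).1
  filter_upwards [hev, hUv, hopen] with w h1 h2 h3
  by_cases hwv : w = v
  · subst hwv
    refine ⟨0, mem_ball_self hr, ?_⟩
    have e : chartMap c (0 : Fin g → ℂ) = 0 := by
      unfold chartMap
      have : (fun i => (c i).w ((0 : Fin g → ℂ) i)) = P := by
        funext i
        exact (c i).w_zero
      rw [this, sub_self, small_cls_zero]
    rw [e, sub_self, small_cls_zero, add_zero]
  · choose τ hτN hτ using h1
    have hwP : ∀ i, P i ≠ w := by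
      intro i h
      exact Set.disjoint_left.mp (hdv i) h2 (h ▸ (hU (P i)).1)
    have hη : val w f⁻¹ ≠ 0 := by
      intro h
      rcases (val_eq_zero_iff w h3).mp h with h' | h'
      · exact inv_ne_zero hf0 h'
      · rw [Place.ord_inv] at h'
        rcases (mem_riemannRochSpace_iff.mp hf) w with h'' | h''
        · exact hf0 h''
        · rw [Finsupp.add_apply, Finsupp.single_apply, if_neg (Ne.symm hwv),
            small_sumPts_eq_zero P hwP] at h''
          omega
    refine ⟨τ, ?_, ?_⟩
    · rw [mem_ball_zero_iff, pi_norm_lt_iff hr]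
      intro i
      exact mem_ball_zero_iff.mp (hτN i).1
    · refine small_key R P v f hf hfc w h3 hη (fun i => (c i).t) ht (fun i => (c i).w (τ i)) τ
        ?_ (fun i => (hτN i).2.1) (fun i => (hτN i).2.2.1.1) ?_ ?_
      · intro i hi
        rw [hi]
        exact (c i).w_zero
      · intro i
        rw [(hτN i).2.2.1.2]
        exact hτ i
      · intro a b hab
        cases a with
        | none =>
          cases b with
          | none => rfl
          | some j =>
            exfalso
            simp only [Option.elim] at hab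
            exact Set.disjoint_left.mp (hdv j) h2 (hab ▸ (hτN j).2.2.2)
        | some i =>
          cases b with
          | none =>
            exfalso
            simp only [Option.elim] at hab
            exact Set.disjoint_left.mp (hdv i) h2 (hab ▸ (hτN i).2.2.2)
          | some j =>
            simp only [Option.elim] at hab
            by_contra hij
            have hij' : i ≠ j := fun h => hij (by rw [h])
            exact Set.disjoint_left.mp (hdP i j hij') (hτN i).2.2.2 (hab ▸ (hτN j).2.2.2)

end Fermat.Agent.S27
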