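import Fermat.Agent.S27.A.Nonspecial
import Fermat.Agent.S27.G.Small
import Fermat.Agent.S27.G.Connected

/-!
# S27 block [G]: final statements `small_class_near`, `clopen_eq_univ`
-/

set_option autoImplicit false

namespace Fermat.Agent.S27

open AlgebraicCurve Fermat.Agent.S24.FF Topology Filter Metric

variable {F : Type*} [Field F] [Algebra ℂ F] [IsFF1 ℂ F]

/-- [G3] for `w` near an arbitrary place `v` (not among the `P i`), the class `[w - v]` is the
negative of a small element of the chart. -/
theorem small_class_near {g : ℕ} (hg : g = genusFF ℂ F) (P : Fin g → Place ℂ F)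
    (hinj : Function.Injective P) (c : ∀ i, Chart (P i)) (hP : ell (sumPts P) = 1)
    (v : Place ℂ F) (hv : ∀ i, P i ≠ v) (r : ℝ) (hr : 0 < r) :
    ∀ᶠ w in 𝓝 v, ∃ u ∈ ball (0 : Fin g → ℂ) r,
      cls (Finsupp.single w 1 - Finsupp.single v 1) + chartMap c u = 0 :=
  small_class_near_aux ⟨finite_riemannRochSpace, ell_sub_hh1, hh1_antitone,
    mem_riemannRochSpace_zero_iff, ord_eq_of_mem_riemannRochSpace⟩ hg P hinj c hP v hv r hr

/-- [G4] connectedness: a clopen set containing a place with a chart (outside the finite set `S`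
of places without charts) is everything. -/
theorem clopen_eq_univ (S : Finset (Place ℂ F)) (hS : ∀ v : Place ℂ F, v ∉ S → Nonempty (Chart v))
    (U : Set (Place ℂ F)) (hU : IsClopen U) (w : Place ℂ F) (hw : w ∈ U) (hwS : w ∉ S) :
    U = Set.univ :=
  clopen_eq_univ_aux compactSpace_place continuousOn_val exists_interpolation
    S hS U hU w hw hwS

end Fermat.Agent.S27
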